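import Mathlib

set_option autoImplicit false

namespace Fermat.Agent.S54

abbrev Lbar : Type := AlgebraicClosure ℚ
abbrev GQ : Type := Lbar ≃ₐ[ℚ] Lbar
noncomputable abbrev Zbar : Subalgebra ℤ Lbar := integralClosure ℤ Lbar

theorem isAlgClosure_Lbar : IsAlgClosure ℚ Lbar :=
  letI : Algebra ℚ (AlgebraicClosure ℚ) := AlgebraicClosure.instAlgebra ℚ
  (inferInstance : IsAlgClosure ℚ (AlgebraicClosure ℚ))

theorem isGalois_Lbar : IsGalois ℚ Lbar :=
  haveI := isAlgClosure_Lbar
  inferInstance

@[instance_reducible]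
noncomputable def zbarAction : MulSemiringAction GQ Zbar where
  smul σ b := ⟨σ b.1, map_isIntegral_int σ b.2⟩
  one_smul _ := Subtype.ext rfl
  mul_smul _ _ _ := Subtype.ext rfl
  smul_zero σ := Subtype.ext (map_zero σ)
  smul_add σ _ _ := Subtype.ext (map_add σ _ _)
  smul_one σ := Subtype.ext (map_one σ)
  smul_mul σ _ _ := Subtype.ext (map_mul σ _ _)

attribute [local instance] zbarAction

theorem zbar_smul_val (σ : GQ) (b : Zbar) : (σ • b).1 = σ b.1 := rfl

theorem zbar_smulCommClass : SMulCommClass GQ ℤ Zbar where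
  smul_comm σ n b := Subtype.ext (by
    change σ (n • b.1) = n • σ b.1
    rw [map_zsmul])

theorem zbar_isInvariant : Algebra.IsInvariant ℤ Zbar GQ where
  isInvariant b hb := by
    haveI := isGalois_Lbar
    have h1 : b.1 ∈ Set.range (algebraMap ℚ Lbar) := by
      rw [InfiniteGalois.mem_range_algebraMap_iff_fixed]
      intro σ
      exact congrArg Subtype.val (hb σ)
    obtain ⟨q, hq⟩ := h1
    have h2 : IsIntegral ℤ q := by
      have := b.2
      rw [← hq] at this
      exact (isIntegral_algebraMap_iff (algebraMap ℚ Lbar).injective).mp this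
    obtain ⟨n, hn⟩ := IsIntegrallyClosed.algebraMap_eq_of_integral h2
    refine ⟨n, Subtype.ext ?_⟩
    rw [← hq, ← hn]
    simp

theorem zbar_continuousSMul :
    @ContinuousSMul GQ Zbar _ _ ⊥ := by
  letI : TopologicalSpace Zbar := ⊥
  haveI : DiscreteTopology Zbar := ⟨rfl⟩
  refine continuousSMul_iff_stabilizer_isOpen.mpr ?_
  intro b
  haveI := isGalois_Lbar
  have h := stabilizer_isOpen_of_isIntegral (K := ℚ) (L := Lbar) b.1
  convert h using 1
  ext σ
  simp only [SetLike.mem_coe, MulAction.mem_stabilizer_iff]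
  exact ⟨fun h => congrArg Subtype.val h, fun h => Subtype.ext h⟩

end Fermat.Agent.S54
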