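import Fermat.Agent.S54.ValLoc
import Fermat.Agent.S54.GalAction

set_option autoImplicit false

namespace Fermat.Agent.S54

open Polynomial

theorem one_not_mem_nonunits {L : Type} [Field L] (V : ValuationSubring L) :
    (1 : L) ∉ V.nonunits := by
  rw [ValuationSubring.mem_nonunits_iff, map_one]
  exact lt_irrefl _

theorem intCast_mem_valuationSubring {L : Type} [Field L] (V : ValuationSubring L) (n : ℤ) :
    (n : L) ∈ V := intCast_mem V n

theorem dvd_of_intCast_mem_nonunits {L : Type} [Field L] (V : ValuationSubring L) (ℓ : ℕ)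
    (hℓ : ℓ.Prime) (hV : (ℓ : L) ∈ V.nonunits) (n : ℤ) (hn : (n : L) ∈ V.nonunits) :
    (ℓ : ℤ) ∣ n := by
  by_contra h
  have hℓ' : Prime (ℓ : ℤ) := Nat.prime_iff_prime_int.mp hℓ
  have hcop : IsCoprime (ℓ : ℤ) n := (hℓ'.irreducible.coprime_iff_not_dvd).mpr h
  obtain ⟨u, w, huw⟩ := hcop
  have h1 : ((u : L) * (ℓ : L) + (w : L) * (n : L)) = 1 := by
    have := congrArg (fun z : ℤ => (z : L)) huw
    simpa using this
  have h2 : (u : L) * (ℓ : L) ∈ V.nonunits := by
    rw [mul_comm]; exact mul_mem_nonunits V (intCast_mem_valuationSubring V u) hV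
  have h3 : (w : L) * (n : L) ∈ V.nonunits := by
    rw [mul_comm]; exact mul_mem_nonunits V (intCast_mem_valuationSubring V w) hn
  have h4 := V.nonunits.add_mem h2 h3
  rw [h1] at h4
  exact one_not_mem_nonunits V h4

theorem isAlgebraic_int_Lbar (a : Lbar) : IsAlgebraic ℤ a := by
  haveI := isAlgClosure_Lbar
  have h : IsAlgebraic ℚ a := Algebra.IsAlgebraic.isAlgebraic a
  exact (IsFractionRing.isAlgebraic_iff ℤ ℚ Lbar).mpr h

theorem exists_frac (V : ValuationSubring Lbar) (ℓ : ℕ) (hℓ : ℓ.Prime)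
    (hV : (ℓ : Lbar) ∈ V.nonunits) (a : Lbar) (ha : a ∈ V) :
    ∃ s b : Zbar, s.1 ∉ V.nonunits ∧ a * s.1 = b.1 := by
  obtain ⟨p, hp0, hp⟩ := isAlgebraic_int_Lbar a
  have hp' : aeval a p.primPart = 0 := aeval_primPart_eq_zero hp0 hp
  have hprim : p.primPart.IsPrimitive := isPrimitive_primPart p
  have hunit : ∃ i, ((p.primPart.coeff i : ℤ) : Lbar) ∉ V.nonunits := by
    by_contra hcon
    simp only [not_exists, not_not] at hcon
    have hdvd : C (ℓ : ℤ) ∣ p.primPart := by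
      rw [C_dvd_iff_dvd_coeff]
      intro i
      exact dvd_of_intCast_mem_nonunits V ℓ hℓ hV _ (hcon i)
    have := hprim _ hdvd
    rw [Int.isUnit_iff] at this
    have h2 := hℓ.two_le
    omega
  obtain ⟨s, b, hs, hb, hsV, hab⟩ := exists_unit_denominator V a ha p.primPart hp' hunit
  exact ⟨⟨s, hs⟩, ⟨b, hb⟩, hsV, hab⟩

end Fermat.Agent.S54
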