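import Fermat.Prelude.Def_EllipticCurve_FrobeniusTrace
import Fermat.Agent.S54.ValLoc2

set_option autoImplicit false

namespace Fermat.Agent.S54

open scoped Pointwise

attribute [local instance] zbarAction

theorem inv_mem_of_not_mem_nonunits (V : ValuationSubring Lbar) {x : Lbar} (hx : x ∈ V)
    (hx' : x ∉ V.nonunits) : x⁻¹ ∈ V := by
  rw [ValuationSubring.mem_nonunits_iff, not_lt] at hx'
  have h1 : V.valuation x ≤ 1 := (V.valuation_le_one_iff x).mpr hx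
  have h2 : V.valuation x = 1 := le_antisymm h1 hx'
  rw [← V.valuation_le_one_iff, map_inv₀, h2, inv_one]

theorem ne_zero_of_not_mem_nonunits (V : ValuationSubring Lbar) {x : Lbar}
    (hx' : x ∉ V.nonunits) : x ≠ 0 := by
  rintro rfl
  exact hx' V.nonunits.zero_mem

/-- An automorphism preserving integrality-units maps `V` into `V`. -/
theorem map_mem_of_preserves (V : ValuationSubring Lbar) (ℓ : ℕ) (hℓ : ℓ.Prime)
    (hV : (ℓ : Lbar) ∈ V.nonunits) (hBV : ∀ b : Zbar, b.1 ∈ V) (τ : GQ)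
    (hτ : ∀ b : Zbar, b.1 ∈ V.nonunits ↔ τ b.1 ∈ V.nonunits) (a : Lbar) (ha : a ∈ V) :
    τ a ∈ V := by
  obtain ⟨s, b, hs, hab⟩ := exists_frac V ℓ hℓ hV a ha
  have h1 : τ a * τ s.1 = τ b.1 := by rw [← map_mul, hab]
  have hτs : τ s.1 ∉ V.nonunits := fun h => hs ((hτ s).mpr h)
  have hτsV : τ s.1 ∈ V := hBV (τ • s)
  have hτbV : τ b.1 ∈ V := hBV (τ • b)
  have hne : τ s.1 ≠ 0 := ne_zero_of_not_mem_nonunits V hτs
  have h2 : τ a = τ b.1 * (τ s.1)⁻¹ := by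
    rw [← h1, mul_assoc, mul_inv_cancel₀ hne, mul_one]
  rw [h2]
  exact mul_mem hτbV (inv_mem_of_not_mem_nonunits V hτsV hτs)

theorem frob_congr (V : ValuationSubring Lbar) (ℓ : ℕ) (hℓ : ℓ.Prime)
    (hV : (ℓ : Lbar) ∈ V.nonunits) (hBV : ∀ b : Zbar, b.1 ∈ V) (σ : GQ)
    (hσ : ∀ b : Zbar, b.1 ∈ V.nonunits ↔ σ b.1 ∈ V.nonunits)
    (hfrob : ∀ b : Zbar, σ b.1 - b.1 ^ ℓ ∈ V.nonunits) (a : Lbar) (ha : a ∈ V) :
    σ a - a ^ ℓ ∈ V.nonunits := by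
  obtain ⟨s, b, hs, hab⟩ := exists_frac V ℓ hℓ hV a ha
  have h1 : σ a * σ s.1 = σ b.1 := by rw [← map_mul, hab]
  have hσs : σ s.1 ∉ V.nonunits := fun h => hs ((hσ s).mpr h)
  have hσsV : σ s.1 ∈ V := hBV (σ • s)
  have hne : σ s.1 ≠ 0 := ne_zero_of_not_mem_nonunits V hσs
  have hinv : (σ s.1)⁻¹ ∈ V := inv_mem_of_not_mem_nonunits V hσsV hσs
  have h3 : (σ a - a ^ ℓ) * σ s.1 = (σ b.1 - b.1 ^ ℓ) - (σ s.1 - s.1 ^ ℓ) * a ^ ℓ := by
    rw [← h1, ← hab]; ring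
  have h4 : (σ a - a ^ ℓ) * σ s.1 ∈ V.nonunits := by
    rw [h3]
    exact V.nonunits.sub_mem (hfrob b) (mul_mem_nonunits V (pow_mem ha ℓ) (hfrob s))
  have h5 : σ a - a ^ ℓ = ((σ a - a ^ ℓ) * σ s.1) * (σ s.1)⁻¹ := by
    rw [mul_assoc, mul_inv_cancel₀ hne, mul_one]
  rw [h5]
  exact mul_mem_nonunits V hinv h4

end Fermat.Agent.S54

namespace Fermat.Agent.S54

open scoped Pointwise

attribute [local instance] zbarAction

theorem not_isUnit_natCast_zbar (ℓ : ℕ) (hℓ : ℓ.Prime) : ¬ IsUnit ((ℓ : ℕ) : Zbar.toSubring) := by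
  intro h
  obtain ⟨c, hc⟩ := isUnit_iff_exists_inv.mp h
  have hc' : (ℓ : Lbar) * c.1 = 1 := congrArg Subtype.val hc
  have hℓ0 : (ℓ : Lbar) ≠ 0 := Nat.cast_ne_zero.mpr hℓ.ne_zero
  have h1 : c.1 = algebraMap ℚ Lbar ((ℓ : ℚ)⁻¹) := by
    rw [map_inv₀, map_natCast]
    exact eq_inv_of_mul_eq_one_right hc'
  have h2 : IsIntegral ℤ ((ℓ : ℚ)⁻¹) := by
    have := c.2
    change IsIntegral ℤ c.1 at this
    rw [h1] at this
    exact (isIntegral_algebraMap_iff (algebraMap ℚ Lbar).injective).mp this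
  obtain ⟨n, hn⟩ := IsIntegrallyClosed.algebraMap_eq_of_integral h2
  have h3 : (n : ℚ) * (ℓ : ℚ) = 1 := by
    have : (algebraMap ℤ ℚ n) = (n : ℚ) := rfl
    rw [← this, hn]
    exact inv_mul_cancel₀ (Nat.cast_ne_zero.mpr hℓ.ne_zero)
  have h4 : n * (ℓ : ℤ) = 1 := by exact_mod_cast h3
  have h5 : IsUnit ((ℓ : ℕ) : ℤ) := IsUnit.of_mul_eq_one _ (by rw [mul_comm]; exact h4)
  rw [Int.isUnit_iff] at h5
  have := hℓ.two_le
  omega

theorem exists_valuationSubring_over (ℓ : ℕ) (hℓ : ℓ.Prime) :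
    ∃ V : ValuationSubring Lbar, (∀ b : Zbar, b.1 ∈ V) ∧ (ℓ : Lbar) ∈ V.nonunits := by
  have hne : Ideal.span {((ℓ : ℕ) : Zbar.toSubring)} ≠ ⊤ := by
    rw [Ne, Ideal.span_singleton_eq_top]
    exact not_isUnit_natCast_zbar ℓ hℓ
  obtain ⟨V, hBV, hV⟩ := Ideal.image_subset_nonunits_valuationSubring _ hne
  refine ⟨V, fun b => hBV b.2, ?_⟩
  exact hV ⟨((ℓ : ℕ) : Zbar.toSubring), Ideal.subset_span rfl, by simp⟩

end Fermat.Agent.S54
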