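import Fermat.Agent.S54.Frobenius2

set_option autoImplicit false

namespace Fermat.Agent.S54

open scoped Pointwise

attribute [local instance] zbarAction

theorem exists_frobenius_zbar (V : ValuationSubring Lbar) (hBV : ∀ b : Zbar, b.1 ∈ V) (ℓ : ℕ)
    (hℓ : ℓ.Prime) (hV : (ℓ : Lbar) ∈ V.nonunits) :
    ∃ σ : GQ, (∀ b : Zbar, b.1 ∈ V.nonunits ↔ σ b.1 ∈ V.nonunits) ∧
      ∀ b : Zbar, σ b.1 - b.1 ^ ℓ ∈ V.nonunits := by
  set Q : Ideal Zbar := primeQ V hBV with hQ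
  set P : Ideal ℤ := Ideal.span {(ℓ : ℤ)} with hP
  haveI hQprime : Q.IsPrime := primeQ_isPrime V hBV
  haveI hQP : Q.LiesOver P := primeQ_liesOver V hBV ℓ hℓ hV
  haveI := zbar_smulCommClass
  haveI := zbar_isInvariant
  haveI := isGalois_Lbar
  letI : TopologicalSpace Zbar := ⊥
  haveI : DiscreteTopology Zbar := ⟨rfl⟩
  haveI : ContinuousSMul GQ Zbar := zbar_continuousSMul
  have hℓQ : ((ℓ : ℕ) : Zbar) ∈ Q := by
    rw [hQ, mem_primeQ]
    simpa using hV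
  haveI : CharP (Zbar ⧸ Q) ℓ := by
    rw [CharP.charP_iff_prime_eq_zero hℓ]
    have : ((ℓ : ℕ) : Zbar ⧸ Q) = Ideal.Quotient.mk Q ((ℓ : ℕ) : Zbar) := by simp
    rw [this, Ideal.Quotient.eq_zero_iff_mem]
    exact hℓQ
  haveI : Fact ℓ.Prime := ⟨hℓ⟩
  let F : (Zbar ⧸ Q) →ₐ[ℤ ⧸ P] (Zbar ⧸ Q) :=
    { frobenius (Zbar ⧸ Q) ℓ with
      commutes' := by
        intro r
        obtain ⟨n, rfl⟩ := Ideal.Quotient.mk_surjective r
        have h1 : algebraMap (ℤ ⧸ P) (Zbar ⧸ Q) (Ideal.Quotient.mk P n) = ((n : ℤ) : Zbar ⧸ Q) := by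
          have : Ideal.Quotient.mk P n = ((n : ℤ) : ℤ ⧸ P) := by simp
          rw [this, map_intCast]
        rw [h1]
        exact map_intCast (frobenius (Zbar ⧸ Q) ℓ) n }
  have hFapply : ∀ x, F x = x ^ ℓ := fun x => rfl
  have hbij : Function.Bijective F := by
    constructor
    · intro x y hxy
      rw [hFapply, hFapply] at hxy
      exact frobenius_inj (Zbar ⧸ Q) ℓ hxy
    · intro x
      obtain ⟨b, rfl⟩ := Ideal.Quotient.mk_surjective x
      obtain ⟨c, hc⟩ := IsAlgClosed.exists_pow_nat_eq b.1 hℓ.pos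
      have hcint : IsIntegral ℤ c := by
        have hb := b.2
        change IsIntegral ℤ b.1 at hb
        rw [← hc] at hb
        exact IsIntegral.of_pow hℓ.pos hb
      refine ⟨Ideal.Quotient.mk Q ⟨c, hcint⟩, ?_⟩
      rw [hFapply, ← map_pow]
      congr 1
      exact Subtype.ext hc
  let Fe : (Zbar ⧸ Q) ≃ₐ[ℤ ⧸ P] (Zbar ⧸ Q) := AlgEquiv.ofBijective F hbij
  obtain ⟨⟨σ, hσ⟩, hσF⟩ := Ideal.Quotient.stabilizerHom_surjective_of_profinite (G := GQ) P Q Fe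
  refine ⟨σ, ?_, ?_⟩
  · intro b
    have hσ' : σ • Q = Q := MulAction.mem_stabilizer_iff.mp hσ
    have h1 : b ∈ Q ↔ σ • b ∈ Q := by
      conv_rhs => rw [← hσ']
      exact (Ideal.smul_mem_pointwise_smul_iff).symm
    have h2 := mem_primeQ V hBV b
    have h3 := mem_primeQ V hBV (σ • b)
    rw [zbar_smul_val] at h3
    exact h2.symm.trans (h1.trans h3)
  · intro b
    have h1 := DFunLike.congr_fun hσF (Ideal.Quotient.mk Q b)
    have h2 : Fe (Ideal.Quotient.mk Q b) = Ideal.Quotient.mk Q (b ^ ℓ) := by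
      rw [map_pow]; rfl
    have h3 : (Ideal.Quotient.stabilizerHom Q P GQ ⟨σ, hσ⟩) (Ideal.Quotient.mk Q b) =
        Ideal.Quotient.mk Q (σ • b) := rfl
    rw [h2, h3, Ideal.Quotient.eq] at h1
    exact (mem_primeQ V hBV _).mp h1

end Fermat.Agent.S54
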