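import Fermat.Prelude.Def_EllipticCurve_FrobeniusTrace
import Fermat.Agent.S54.Frobenius3

set_option autoImplicit false

namespace Fermat.Agent.S54

open scoped Pointwise

attribute [local instance] zbarAction

theorem exists_frobenius (ℓ : ℕ) (hℓ : ℓ.Prime) :
    ∃ A : ValuationSubring (AlgebraicClosure ℚ), A.LiesOverPrime ℓ ∧
      ∃ σ : AlgebraicClosure ℚ ≃ₐ[ℚ] AlgebraicClosure ℚ, A.IsFrobeniusAt σ ℓ := by
  obtain ⟨V, hBV, hV⟩ := exists_valuationSubring_over ℓ hℓ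
  obtain ⟨σ, hσ, hfrob⟩ := exists_frobenius_zbar V hBV ℓ hℓ hV
  refine ⟨V, hV, σ, ?_⟩
  have hσinv : ∀ b : Zbar, b.1 ∈ V.nonunits ↔ σ⁻¹ b.1 ∈ V.nonunits := by
    intro b
    have h := hσ (σ⁻¹ • b)
    rw [zbar_smul_val] at h
    have h2 : σ (σ⁻¹ b.1) = b.1 := by
      change (σ * σ⁻¹) b.1 = b.1
      rw [mul_inv_cancel]; rfl
    rw [h2] at h
    exact h.symm
  have hmem : σ ∈ V.decompositionSubgroup ℚ := by
    rw [MulAction.mem_stabilizer_iff]
    ext x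
    rw [ValuationSubring.mem_smul_pointwise_iff_exists]
    constructor
    · rintro ⟨y, hy, rfl⟩
      exact map_mem_of_preserves V ℓ hℓ hV hBV σ hσ y hy
    · intro hx
      refine ⟨σ⁻¹ x, map_mem_of_preserves V ℓ hℓ hV hBV σ⁻¹ hσinv x hx, ?_⟩
      change (σ * σ⁻¹) x = x
      rw [mul_inv_cancel]; rfl
  refine ⟨hmem, fun x => ?_⟩
  obtain ⟨a, rfl⟩ := IsLocalRing.residue_surjective x
  rw [← IsLocalRing.ResidueField.residue_smul, ← map_pow, ← sub_eq_zero, ← map_sub,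
    IsLocalRing.residue_eq_zero_iff, ← ValuationSubring.coe_mem_nonunits_iff]
  exact frob_congr V ℓ hℓ hV hBV σ hσ hfrob a.1 a.2

end Fermat.Agent.S54
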