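import Fermat.Agent.S54.Frobenius

set_option autoImplicit false

namespace Fermat.Agent.S54

open scoped Pointwise

attribute [local instance] zbarAction

/-- The inclusion of `Zbar` into a valuation subring containing it. -/
noncomputable def toV (V : ValuationSubring Lbar) (hBV : ∀ b : Zbar, b.1 ∈ V) : Zbar →+* V :=
  RingHom.codRestrict (Zbar.val : Zbar →+* Lbar) V (fun b => hBV b)

theorem toV_val (V : ValuationSubring Lbar) (hBV : ∀ b : Zbar, b.1 ∈ V) (b : Zbar) :
    ((toV V hBV b : V) : Lbar) = b.1 := rfl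

/-- The prime of `Zbar` cut out by `V`. -/
noncomputable def primeQ (V : ValuationSubring Lbar) (hBV : ∀ b : Zbar, b.1 ∈ V) : Ideal Zbar :=
  Ideal.comap (toV V hBV) (IsLocalRing.maximalIdeal V)

theorem mem_primeQ (V : ValuationSubring Lbar) (hBV : ∀ b : Zbar, b.1 ∈ V) (b : Zbar) :
    b ∈ primeQ V hBV ↔ b.1 ∈ V.nonunits := by
  unfold primeQ
  rw [Ideal.mem_comap, ← ValuationSubring.coe_mem_nonunits_iff, toV_val]

theorem primeQ_isPrime (V : ValuationSubring Lbar) (hBV : ∀ b : Zbar, b.1 ∈ V) :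
    (primeQ V hBV).IsPrime :=
  Ideal.comap_isPrime _ _

theorem primeQ_liesOver (V : ValuationSubring Lbar) (hBV : ∀ b : Zbar, b.1 ∈ V) (ℓ : ℕ)
    (hℓ : ℓ.Prime) (hV : (ℓ : Lbar) ∈ V.nonunits) :
    (primeQ V hBV).LiesOver (Ideal.span {(ℓ : ℤ)}) := by
  constructor
  ext n
  rw [Ideal.mem_span_singleton, Ideal.under_def, Ideal.mem_comap, mem_primeQ]
  have hcast : ((algebraMap ℤ Zbar n : Zbar) : Lbar) = (n : Lbar) := by
    simp
  rw [hcast]
  constructor
  · rintro ⟨k, rfl⟩
    rw [Int.cast_mul, Int.cast_natCast]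
    exact mul_mem_nonunits V (intCast_mem_valuationSubring V k) hV
  · exact dvd_of_intCast_mem_nonunits V ℓ hℓ hV n

end Fermat.Agent.S54
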