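import Mathlib

set_option autoImplicit false

namespace Fermat.Agent.S54

open Polynomial

variable {L : Type} [Field L]

theorem isIntegral_of_forall_mem_valuationSubring (x : L)
    (h : ∀ W : ValuationSubring L, x ∈ W) : IsIntegral ℤ x := by
  by_contra hx
  have hx' : x ∉ (integralClosure ℤ L).toSubring := hx
  obtain ⟨V, -, hV⟩ := Subring.exists_le_valuationSubring_of_isIntegrallyClosedIn hx'
  exact hV (h V)

theorem aeval_mem_valuationSubring (W : ValuationSubring L) (a : L) (ha : a ∈ W) (q : ℤ[X]) :
    aeval a q ∈ W := by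
  rw [aeval_eq_sum_range]
  exact sum_mem fun i _ => zsmul_mem (pow_mem ha i) _

/-- Horner tails. -/
noncomputable def tail (p : ℤ[X]) (a : L) (m : ℕ) : L := aeval a (divX^[m] p)

theorem tail_zero (p : ℤ[X]) (a : L) : tail p a 0 = aeval a p := rfl

theorem coeff_iterate_divX (p : ℤ[X]) (m i : ℕ) : (divX^[m] p).coeff i = p.coeff (i + m) := by
  induction m generalizing i with
  | zero => simp
  | succ m ih =>
    rw [Function.iterate_succ_apply', coeff_divX, ih]
    congr 1
    omega

theorem tail_succ (p : ℤ[X]) (a : L) (m : ℕ) :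
    tail p a m = tail p a (m + 1) * a + (p.coeff m : L) := by
  unfold tail
  have h := divX_mul_X_add (divX^[m] p)
  have h2 := congrArg (aeval a) h
  rw [map_add, map_mul, aeval_X, aeval_C, coeff_iterate_divX, zero_add] at h2
  rw [Function.iterate_succ_apply', ← h2]
  simp

theorem tail_mem (p : ℤ[X]) (a : L) (hp : aeval a p = 0) (W : ValuationSubring L) (m : ℕ) :
    tail p a m ∈ W ∧ a * tail p a m ∈ W := by
  by_cases ha : a ∈ W
  · have h1 : tail p a m ∈ W := aeval_mem_valuationSubring W a ha _
    exact ⟨h1, mul_mem ha h1⟩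
  · have ha0 : a ≠ 0 := fun h => ha (h ▸ W.zero_mem)
    have hinv : a⁻¹ ∈ W := (W.mem_or_inv_mem a).resolve_left ha
    have hint : ∀ n : ℤ, (n : L) ∈ W := fun n => intCast_mem W n
    have key : ∀ m, tail p a m ∈ W := by
      intro m
      induction m with
      | zero => rw [tail_zero, hp]; exact W.zero_mem
      | succ m ih =>
        have h := tail_succ p a m
        have : tail p a (m + 1) = (tail p a m - (p.coeff m : L)) * a⁻¹ := by
          rw [h, add_sub_cancel_right, mul_assoc, mul_inv_cancel₀ ha0, mul_one]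
        rw [this]
        exact mul_mem (sub_mem ih (hint _)) hinv
    refine ⟨key m, ?_⟩
    cases m with
    | zero => rw [tail_zero, hp, mul_zero]; exact W.zero_mem
    | succ m =>
      have h := tail_succ p a m
      have : a * tail p a (m + 1) = tail p a m - (p.coeff m : L) := by
        rw [h]; ring
      rw [this]
      exact sub_mem (key m) (hint _)

theorem tail_isIntegral (p : ℤ[X]) (a : L) (hp : aeval a p = 0) (m : ℕ) :
    IsIntegral ℤ (tail p a m) ∧ IsIntegral ℤ (a * tail p a m) :=
  ⟨isIntegral_of_forall_mem_valuationSubring _ fun W => (tail_mem p a hp W m).1,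
   isIntegral_of_forall_mem_valuationSubring _ fun W => (tail_mem p a hp W m).2⟩

end Fermat.Agent.S54

namespace Fermat.Agent.S54

open Polynomial

variable {L : Type} [Field L]

theorem mul_mem_nonunits (V : ValuationSubring L) {a t : L} (ha : a ∈ V) (ht : t ∈ V.nonunits) :
    t * a ∈ V.nonunits := by
  rw [ValuationSubring.mem_nonunits_iff] at ht ⊢
  rw [map_mul]
  have h1 : V.valuation a ≤ 1 := (V.valuation_le_one_iff a).mpr ha
  calc V.valuation t * V.valuation a ≤ V.valuation t * 1 := by gcongr
    _ = V.valuation t := mul_one _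
    _ < 1 := ht

theorem aeval_mem_nonunits (V : ValuationSubring L) (a : L) (ha : a ∈ V) (q : ℤ[X])
    (hq : ∀ i, ((q.coeff i : ℤ) : L) ∈ V.nonunits) : aeval a q ∈ V.nonunits := by
  rw [aeval_eq_sum_range]
  refine sum_mem fun i _ => ?_
  rw [zsmul_eq_mul]
  exact mul_mem_nonunits V (pow_mem ha i) (hq i)

theorem exists_unit_denominator (V : ValuationSubring L) (a : L) (ha : a ∈ V) (p : ℤ[X])
    (hp : aeval a p = 0) (hunit : ∃ i, ((p.coeff i : ℤ) : L) ∉ V.nonunits) :
    ∃ s b : L, IsIntegral ℤ s ∧ IsIntegral ℤ b ∧ s ∉ V.nonunits ∧ a * s = b := by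
  classical
  obtain ⟨i0, hi0⟩ := hunit
  have hi0le : i0 ≤ p.natDegree := by
    by_contra h
    rw [coeff_eq_zero_of_natDegree_lt (not_le.mp h)] at hi0
    exact hi0 (by simpa using V.nonunits.zero_mem)
  set P : ℕ → Prop := fun i => ((p.coeff i : ℤ) : L) ∉ V.nonunits with hP
  set j := Nat.findGreatest P p.natDegree with hj
  have hPj : P j := Nat.findGreatest_spec (P := P) hi0le hi0
  have hgt : ∀ i, j < i → ((p.coeff i : ℤ) : L) ∈ V.nonunits := by
    intro i hi
    by_cases hile : i ≤ p.natDegree
    · by_contra hcon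
      exact Nat.findGreatest_is_greatest (P := P) hi hile hcon
    · rw [coeff_eq_zero_of_natDegree_lt (not_le.mp hile)]
      simpa using V.nonunits.zero_mem
  refine ⟨tail p a j, a * tail p a j, (tail_isIntegral p a hp j).1, (tail_isIntegral p a hp j).2,
    ?_, rfl⟩
  have h1 : tail p a (j + 1) ∈ V.nonunits := by
    refine aeval_mem_nonunits V a ha _ fun i => ?_
    rw [coeff_iterate_divX]
    exact hgt _ (by omega)
  have h2 : tail p a (j + 1) * a ∈ V.nonunits := mul_mem_nonunits V ha h1
  intro hcon
  rw [tail_succ p a j] at hcon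
  have h3 := V.nonunits.sub_mem hcon h2
  rw [add_sub_cancel_left] at h3
  exact hPj h3

end Fermat.Agent.S54
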